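/-
S48lib / Conj / Alg  (helper1)

The algebraic package `DS.AlgStmt` (I1 + I2 of the Deligne–Serre plan) from the hypothesis
"`S₂(Γ₁(M))` is spanned by forms with integral `q`-expansion" (`SpanInt M`, a clause of
`Iface.W2Int M`) at the level `M = 4 N`:

* `exists_fg_coeff_one` : all `q`-coefficients of a weight-one form on `Γ₁(M)`, `4 ∣ M`, lie in a
  finitely generated `ℤ`-submodule of `ℂ` (`fΘ = ∑ cᵢ Fᵢ`, `Θ⁻¹ ∈ ℤ[[q]]`);
* `fg_adjoin_genSet`    : hence `ℤ[ε][a_p : p ∤ N]` is a finitely generated `ℤ`-module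
  (Hecke relations), so the `a_p` are algebraic integers and `K₀ = ℚ(ε, a_p)` is a number field;
* `K` := the normal closure of `K₀` in `ℂ`; every `σ : K → ℂ` extends to an automorphism `τ` of
  `ℂ` (`exists_ringEquiv_extending_algHom`, with main's `ProgramR/Descent/AutC`);
* the conjugate forms come from `exists_conj_one` at level `4 N`.
-/
import Mathlib
import Fermat.Prelude.Def_FLTPrelim_Modularity
import Fermat.Agent.ProgramR.Descent.AutC
import Fermat.Agent.S48lib.DS.Inputs
import Fermat.Agent.S48lib.Conj.Conj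

set_option autoImplicit false

noncomputable section

namespace Fermat.Agent.S48lib.Conj

open UpperHalfPlane CongruenceSubgroup ModularForm ModularFormClass
open scoped MatrixGroups ModularForm Manifold
open Fermat.Agent.S48lib.W1 (IsQExp isQExp_of_cuspForm)

section coeff

variable {M : ℕ} [NeZero M]

/-- the coefficients of a weight 2 form lie in a finitely generated `ℤ`-module -/
theorem exists_fg_coeff_two (hM : SpanInt M) (F : CuspForm (Gamma1 M : Subgroup (GL (Fin 2) ℝ)) 2) :
    ∃ Z : Submodule ℤ ℂ, Z.FG ∧ ∀ n : ℕ, (qExpansion 1 ⇑F).coeff n ∈ Z := by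
  have hF : F ∈ Submodule.span ℂ ((Iface.intLattice M 2 : Submodule ℤ (CuspForm (Gamma1 M) 2)) :
      Set (CuspForm (Gamma1 M) 2)) := by
    rw [hM]; trivial
  induction hF using Submodule.span_induction with
  | mem x hx =>
    obtain ⟨P, hP⟩ := exists_int_qExpansion hx
    refine ⟨Submodule.span ℤ {1}, Submodule.fg_span_singleton 1, fun n => ?_⟩
    rw [hP, PowerSeries.coeff_map]
    rw [Submodule.mem_span_singleton]
    exact ⟨P.coeff n, by simp⟩
  | zero =>
    exact ⟨⊥, Submodule.fg_bot, fun n => by rw [qExpansion_cusp_zero]; simp⟩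
  | add x y _ _ hx hy =>
    obtain ⟨Z₁, h1, h1'⟩ := hx
    obtain ⟨Z₂, h2, h2'⟩ := hy
    refine ⟨Z₁ ⊔ Z₂, h1.sup h2, fun n => ?_⟩
    rw [qExpansion_cusp_add, map_add]
    exact Submodule.add_mem_sup (h1' n) (h2' n)
  | smul c x _ hx =>
    obtain ⟨Z₁, h1, h1'⟩ := hx
    refine ⟨Z₁.map (LinearMap.mulLeft ℤ c), h1.map _, fun n => ?_⟩
    rw [qExpansion_cusp_smul, PowerSeries.coeff_smul]
    exact ⟨_, h1' n, rfl⟩

/-- the coefficients of a weight 1 form (level divisible by 4) lie in a finitely generated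
`ℤ`-module -/
theorem exists_fg_coeff_one (hM : SpanInt M) (h4 : 4 ∣ M) {f : ℍ → ℂ} (hf : IsCuspFun M 1 f) :
    ∃ Z : Submodule ℤ ℂ, Z.FG ∧ ∀ n : ℕ, (qExpansion 1 f).coeff n ∈ Z := by
  have hΘ : IsModFun M 1 Th := isModFun_Th.mono h4
  have h1 : IsCuspFun M 2 (f * Th) := hf.mul hΘ
  obtain ⟨Z, hZ, hZ'⟩ := exists_fg_coeff_two hM h1.toCuspForm
  refine ⟨Z, hZ, fun n => ?_⟩
  rw [IsCuspFun.coe_toCuspForm, qExpansion_mul_of_isQExp hf.isQExp isQExp_Th, qExpansion_Th] at hZ'
  obtain ⟨u, hu⟩ := isUnit_ThZ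
  -- `q-exp f = (q-exp f * R) * R⁻¹`
  have e : qExpansion 1 f = (qExpansion 1 f * PowerSeries.map (Int.castRingHom ℂ) ThZ) *
      PowerSeries.map (Int.castRingHom ℂ) (↑u⁻¹ : PowerSeries ℤ) := by
    rw [mul_assoc, ← map_mul, ← hu, Units.mul_inv, map_one, mul_one]
  rw [e, PowerSeries.coeff_mul]
  refine Submodule.sum_mem _ fun ij _ => ?_
  rw [PowerSeries.coeff_map, mul_comm]
  have : ((Int.castRingHom ℂ) ((PowerSeries.coeff ij.2) (↑u⁻¹ : PowerSeries ℤ))) *
      (PowerSeries.coeff ij.1) (qExpansion 1 f * PowerSeries.map (Int.castRingHom ℂ) ThZ) =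
      ((PowerSeries.coeff ij.2) (↑u⁻¹ : PowerSeries ℤ)) •
        (PowerSeries.coeff ij.1) (qExpansion 1 f * PowerSeries.map (Int.castRingHom ℂ) ThZ) := by
    rw [zsmul_eq_mul]; rfl
  rw [this]
  exact Submodule.smul_mem _ _ (hZ' _)


end coeff

section alg

/-- the values of a Dirichlet character are algebraic integers -/
theorem isIntegral_dirichlet {N : ℕ} [NeZero N] (ε : DirichletCharacter ℂ N) (y : ZMod N) :
    IsIntegral ℤ (ε y) := by
  by_cases hy : IsUnit y
  · obtain ⟨u, rfl⟩ := hy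
    have h1 : ε (u : ZMod N) ^ Fintype.card (ZMod N)ˣ = 1 := by
      rw [← map_pow, ← Units.val_pow_eq_pow_val, pow_card_eq_one, Units.val_one, map_one]
    exact IsIntegral.of_pow Fintype.card_pos (h1 ▸ isIntegral_one)
  · rw [MulChar.map_nonunit ε hy]
    exact isIntegral_zero

/-- the generators: Hecke eigenvalues at good primes, and the values of the character -/
def genSet (N : ℕ) (ε : DirichletCharacter ℂ N) (a : ℕ → ℂ) : Set ℂ :=
  {x | ∃ p : ℕ, p.Prime ∧ ¬ p ∣ N ∧ x = a p} ∪ Set.range ε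

variable {N : ℕ} [NeZero N] (ε : DirichletCharacter ℂ N) (a : ℕ → ℂ)

theorem fg_adjoin_range : (Subalgebra.toSubmodule (Algebra.adjoin ℤ (Set.range ε))).FG :=
  fg_adjoin_of_finite (Set.finite_range ε) (by rintro _ ⟨y, rfl⟩; exact isIntegral_dirichlet ε y)

/-- **Finiteness**: if all `a n` lie in a finitely generated `ℤ`-module and satisfy the Hecke
relations, the ring generated by the `a p` (`p ∤ N`) and the values of `ε` is a finitely
generated `ℤ`-module. -/
theorem fg_adjoin_genSet (h1 : a 1 = 1)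
    (hT : ∀ p : ℕ, p.Prime → ¬ p ∣ N → ∀ n : ℕ,
      a (p * n) + ε (p : ZMod N) * (if p ∣ n then a (n / p) else 0) = a p * a n)
    (Z : Submodule ℤ ℂ) (hZ : Z.FG) (hZa : ∀ n, a n ∈ Z) :
    (Subalgebra.toSubmodule (Algebra.adjoin ℤ (genSet N ε a))).FG := by
  set Oε := Algebra.adjoin ℤ (Set.range ε) with hOε
  set S : Submodule ℤ ℂ :=
    Submodule.span ℤ {x | ∃ e ∈ Oε, ∃ n : ℕ, n.Coprime N ∧ x = e * a n} with hS
  have hS' : S ≤ Subalgebra.toSubmodule Oε * Z := by
    rw [hS, Submodule.span_le]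
    rintro _ ⟨e, he, n, _, rfl⟩
    exact Submodule.mul_mem_mul he (hZa n)
  have hgen : ∀ e ∈ Oε, ∀ n : ℕ, n.Coprime N → e * a n ∈ S := fun e he n hn =>
    Submodule.subset_span ⟨e, he, n, hn, rfl⟩
  have hεmem : ∀ y : ZMod N, ε y ∈ Oε := fun y => Algebra.subset_adjoin ⟨y, rfl⟩
  -- multiplication by elements of the ring preserves `S`
  have key : ∀ x ∈ Algebra.adjoin ℤ (genSet N ε a), ∀ s ∈ S, x * s ∈ S := by
    intro x hx
    induction hx using Algebra.adjoin_induction with
    | mem x hx =>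
      intro s hs
      induction hs using Submodule.span_induction with
      | mem s hs =>
        obtain ⟨e, he, n, hn, rfl⟩ := hs
        rcases hx with ⟨p, hp, hpN, rfl⟩ | ⟨y, rfl⟩
        · have e1 : a p * (e * a n) = e * a (p * n) +
              (e * ε (p : ZMod N)) * (if p ∣ n then a (n / p) else 0) := by
            rw [← mul_assoc, mul_comm (a p) e, mul_assoc, ← hT p hp hpN n]; ring
          rw [e1]
          have hpc : p.Coprime N := (Nat.Prime.coprime_iff_not_dvd hp).mpr hpN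
          refine S.add_mem (hgen e he _ (Nat.Coprime.mul_left hpc hn)) ?_
          split_ifs with hpn
          · exact hgen _ (Oε.mul_mem he (hεmem _)) _
              (Nat.Coprime.coprime_dvd_left (Nat.div_dvd_of_dvd hpn) hn)
          · rw [mul_zero]; exact S.zero_mem
        · rw [← mul_assoc]
          exact hgen _ (Oε.mul_mem (hεmem y) he) n hn
      | zero => rw [mul_zero]; exact S.zero_mem
      | add s t _ _ hs ht => rw [mul_add]; exact S.add_mem hs ht
      | smul c s _ hs => rw [mul_smul_comm]; exact S.smul_mem c hs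
    | algebraMap r =>
      intro s hs
      have : (algebraMap ℤ ℂ r) * s = r • s := by rw [zsmul_eq_mul]; rfl
      rw [this]; exact S.smul_mem r hs
    | add x y _ _ hx hy => intro s hs; rw [add_mul]; exact S.add_mem (hx s hs) (hy s hs)
    | mul x y _ _ hx hy => intro s hs; rw [mul_assoc]; exact hx _ (hy s hs)
  have hone : (1 : ℂ) ∈ S := by
    have := hgen 1 Oε.one_mem 1 (Nat.coprime_one_left N)
    rwa [h1, mul_one] at this
  have hle : Subalgebra.toSubmodule (Algebra.adjoin ℤ (genSet N ε a)) ≤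
      Subalgebra.toSubmodule Oε * Z := by
    intro x hx
    have := key x hx 1 hone
    rw [mul_one] at this
    exact hS' this
  have hfg : (Subalgebra.toSubmodule Oε * Z).FG := (fg_adjoin_range ε).mul hZ
  have hn1 : IsNoetherian ℤ ↥(Subalgebra.toSubmodule Oε * Z) :=
    isNoetherian_of_fg_of_noetherian _ hfg
  have hn2 : IsNoetherian ℤ ↥(Subalgebra.toSubmodule (Algebra.adjoin ℤ (genSet N ε a))) :=
    isNoetherian_of_le hle
  exact (Submodule.fg_top _).mp (IsNoetherian.noetherian ⊤)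


end alg

/-- every embedding of a normal subextension `K/F` of an algebraically closed `L/F` extends to an
automorphism of `L`. -/
theorem exists_ringEquiv_extending_algHom {F L : Type*} [Field F] [Field L] [Algebra F L]
    [IsAlgClosed L] (K : IntermediateField F L) [Normal F K] (σ : K →ₐ[F] L) :
    ∃ τ : L ≃+* L, ∀ x : K, τ (x : L) = σ x := by
  classical
  have hrange : σ.fieldRange = K := AlgHom.fieldRange_of_normal σ
  have hmem : ∀ x : K, σ x ∈ K.toSubalgebra := fun x => by
    have : σ x ∈ σ.fieldRange := ⟨x, rfl⟩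
    rw [hrange] at this
    exact this
  let σ₀ : K →ₐ[F] K := σ.codRestrict K.toSubalgebra hmem
  have : Algebra.IsAlgebraic F K := Normal.toIsAlgebraic
  have hbij : Function.Bijective σ₀ := Algebra.IsAlgebraic.algHom_bijective σ₀
  let e : K ≃+* K := (AlgEquiv.ofBijective σ₀ hbij).toRingEquiv
  obtain ⟨s, hs⟩ := exists_isTranscendenceBasis K L
  let φ : MvPolynomial s K ≃+* MvPolynomial s K := MvPolynomial.mapEquiv s e
  obtain ⟨τ, hτ⟩ := Fermat.Agent.ProgramR.Descent.exists_ringEquiv_extending hs φ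
  refine ⟨τ, fun x => ?_⟩
  have h1 := hτ (MvPolynomial.C x)
  have h2 : φ (MvPolynomial.C x) = MvPolynomial.C (e x) := by
    show MvPolynomial.map (e : K →+* K) (MvPolynomial.C x) = _
    rw [MvPolynomial.map_C]; rfl
  rw [h2, MvPolynomial.aeval_C, MvPolynomial.aeval_C] at h1
  rw [show (x : L) = algebraMap K L x from rfl, h1]
  rfl


/-- `ℚ`-version, insensitive to the choice of the `ℚ`-algebra instance on `K`. -/
theorem exists_ringEquiv_extending_ringHom (K : IntermediateField ℚ ℂ) (hK : Normal ℚ K)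
    (σ : K →+* ℂ) : ∃ τ : ℂ ≃+* ℂ, ∀ (x : ℂ) (hx : x ∈ K), τ x = σ ⟨x, hx⟩ := by
  have hK' : @Normal ℚ K _ _ (IntermediateField.algebra' K) := hK
  let σ' : @AlgHom ℚ K ℂ _ _ _ (IntermediateField.algebra' K) _ :=
    { toRingHom := σ
      commutes' := fun r => by
        show σ (algebraMap ℚ K r) = algebraMap ℚ ℂ r
        rw [eq_ratCast (algebraMap ℚ K) r, eq_ratCast (algebraMap ℚ ℂ) r, map_ratCast] }
  obtain ⟨τ, hτ⟩ := @exists_ringEquiv_extending_algHom ℚ ℂ _ _ _ _ K hK' σ'
  exact ⟨τ, fun x hx => hτ ⟨x, hx⟩⟩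

section field

variable (N : ℕ) (ε : DirichletCharacter ℂ N) (a : ℕ → ℂ)

/-- `K₀ = ℚ(a_p, ε)` -/
def K0 : IntermediateField ℚ ℂ := IntermediateField.adjoin ℚ (genSet N ε a)

theorem finiteDimensional_K0
    (hfg : (Subalgebra.toSubmodule (Algebra.adjoin ℤ (genSet N ε a))).FG) :
    FiniteDimensional ℚ (K0 N ε a) := by
  have hint : ∀ x ∈ genSet N ε a, IsIntegral ℤ x := fun x hx =>
    IsIntegral.of_mem_of_fg _ hfg x (Algebra.subset_adjoin hx)
  have halg : ∀ x ∈ genSet N ε a, IsAlgebraic ℚ x := fun x hx =>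
    ((hint x hx).tower_top (A := ℚ)).isAlgebraic
  have h1 : (K0 N ε a).toSubalgebra = Algebra.adjoin ℚ (genSet N ε a) :=
    IntermediateField.adjoin_toSubalgebra_of_isAlgebraic halg
  obtain ⟨t, ht⟩ := hfg
  have h2 : Subalgebra.toSubmodule (Algebra.adjoin ℚ (genSet N ε a)) ≤
      Submodule.span ℚ (t : Set ℂ) := by
    rw [Algebra.adjoin_eq_span, Submodule.span_le]
    intro x hx
    have hx' : x ∈ Algebra.adjoin ℤ (genSet N ε a) := by
      have : Submonoid.closure (genSet N ε a) ≤ (Algebra.adjoin ℤ (genSet N ε a)).toSubmonoid :=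
        Submonoid.closure_le.mpr Algebra.subset_adjoin
      exact this hx
    have hx'' : x ∈ Submodule.span ℤ (t : Set ℂ) := by rw [ht]; exact hx'
    exact Submodule.span_subset_span ℤ ℚ _ hx''
  have h3 : FiniteDimensional ℚ ↥(Submodule.span ℚ (t : Set ℂ)) :=
    FiniteDimensional.span_finset ℚ t
  have h4 : FiniteDimensional ℚ ↥(Subalgebra.toSubmodule (Algebra.adjoin ℚ (genSet N ε a))) :=
    Submodule.finiteDimensional_of_le h2
  have h5 : FiniteDimensional ℚ ↥(Algebra.adjoin ℚ (genSet N ε a)) :=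
    Subalgebra.finiteDimensional_toSubmodule.mp h4
  rw [← h1] at h5
  exact h5

/-- the number field `K`: the normal closure of `K₀` in `ℂ` -/
def KK : IntermediateField ℚ ℂ := IntermediateField.normalClosure ℚ (K0 N ε a) ℂ

theorem K0_le_KK : K0 N ε a ≤ KK N ε a := IntermediateField.le_normalClosure _

theorem normal_KK (hfd : FiniteDimensional ℚ (K0 N ε a)) : Normal ℚ (KK N ε a) := by
  have := hfd
  have : Algebra.IsAlgebraic ℚ (K0 N ε a) := Algebra.IsAlgebraic.of_finite ℚ _
  exact (Algebra.IsAlgebraic.isNormalClosure_normalClosure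
    (fun x => IsAlgClosed.splits _)).normal

theorem finiteDimensional_KK (hfd : FiniteDimensional ℚ (K0 N ε a)) :
    FiniteDimensional ℚ (KK N ε a) := by
  have := hfd
  exact normalClosure.is_finiteDimensional ℚ _ ℂ

theorem mem_KK_of_mem_genSet {x : ℂ} (hx : x ∈ genSet N ε a) : x ∈ KK N ε a :=
  K0_le_KK N ε a (IntermediateField.subset_adjoin ℚ _ hx)

end field

end Fermat.Agent.S48lib.Conj
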