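/-
S48lib / Conj / Main  (helper1)

`algStmt_of_spanInt : (∀ M [NeZero M], SpanInt M) → DS.AlgStmt`  (I1 + I2).
Only the level `M = 4 N` is used.
-/
import Mathlib
import Fermat.Prelude.Def_FLTPrelim_Modularity
import Fermat.Agent.S48lib.DS.Inputs
import Fermat.Agent.S48lib.Conj.Alg

set_option autoImplicit false

noncomputable section

namespace Fermat.Agent.S48lib.Conj

open UpperHalfPlane CongruenceSubgroup ModularForm ModularFormClass NumberField
open scoped MatrixGroups ModularForm Manifold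

variable {N : ℕ} [NeZero N]

/-- the algebraic package at level `N` from `SpanInt (4 N)`. -/
theorem nonempty_algPackage (hM : SpanInt (4 * N)) (ε : DirichletCharacter ℂ N)
    (f : CuspForm (Gamma1 N : Subgroup (GL (Fin 2) ℝ)) 1) (hf : DS.IsW1Eigen N ε f) :
    Nonempty (DS.AlgPackage N ε (fun n => qCoeff f n)) := by
  classical
  obtain ⟨h1, hT⟩ := hf
  set a : ℕ → ℂ := fun n => qCoeff f n with ha
  have : NeZero (4 * N) := ⟨Nat.mul_ne_zero (by norm_num) (NeZero.ne N)⟩
  have h4N : 4 ∣ 4 * N := Dvd.intro N rfl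
  have hN4 : N ∣ 4 * N := Dvd.intro_left 4 rfl
  have hfc : IsCuspFun (4 * N) 1 ⇑f := IsCuspFun.of_cuspForm f hN4
  obtain ⟨Z, hZ, hZa⟩ := exists_fg_coeff_one hM h4N hfc
  have hfg := fg_adjoin_genSet ε a h1 hT Z hZ hZa
  have hfd := finiteDimensional_K0 N ε a hfg
  have hint : ∀ x ∈ genSet N ε a, IsIntegral ℤ x := fun x hx =>
    IsIntegral.of_mem_of_fg _ hfg x (Algebra.subset_adjoin hx)
  set K : IntermediateField ℚ ℂ := KK N ε a with hK
  have hnorm : Normal ℚ K := normal_KK N ε a hfd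
  have hfdK : FiniteDimensional ℚ K := finiteDimensional_KK N ε a hfd
  have hnf : NumberField K := { to_charZero := inferInstance, to_finiteDimensional := hfdK }
  -- integrality inside `K`
  have hintK : ∀ (x : ℂ) (hx : x ∈ genSet N ε a),
      IsIntegral ℤ (⟨x, mem_KK_of_mem_genSet N ε a hx⟩ : K) := fun x hx =>
    (isIntegral_algebraMap_iff (algebraMap K ℂ).injective).mp (hint x hx)
  have hεmem : ∀ y : ZMod N, ε y ∈ genSet N ε a := fun y => Or.inr ⟨y, rfl⟩
  have hamem : ∀ p : ℕ, p.Prime ∧ ¬ p ∣ N → a p ∈ genSet N ε a := fun p hp =>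
    Or.inl ⟨p, hp.1, hp.2, rfl⟩
  let εK : DirichletCharacter (𝓞 K) N :=
    { toFun := fun y => ⟨⟨ε y, mem_KK_of_mem_genSet N ε a (hεmem y)⟩, hintK _ (hεmem y)⟩
      map_one' := by
        apply RingOfIntegers.ext
        apply Subtype.ext
        show ε 1 = 1
        exact map_one ε
      map_mul' := fun x y => by
        apply RingOfIntegers.ext
        apply Subtype.ext
        show ε (x * y) = ε x * ε y
        exact map_mul ε x y
      map_nonunit' := fun y hy => by
        apply RingOfIntegers.ext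
        apply Subtype.ext
        show ε y = 0
        exact MulChar.map_nonunit ε hy }
  let α : ℕ → 𝓞 K := fun p =>
    if hp : p.Prime ∧ ¬ p ∣ N then
      ⟨⟨a p, mem_KK_of_mem_genSet N ε a (hamem p hp)⟩, hintK _ (hamem p hp)⟩
    else 0
  have hα : ∀ (p : ℕ) (hp : p.Prime) (hpN : ¬ p ∣ N), ((α p : 𝓞 K) : K) =
      ⟨a p, mem_KK_of_mem_genSet N ε a (hamem p ⟨hp, hpN⟩)⟩ := fun p hp hpN => by
    have e : α p = ⟨⟨a p, mem_KK_of_mem_genSet N ε a (hamem p ⟨hp, hpN⟩)⟩,
        hintK _ (hamem p ⟨hp, hpN⟩)⟩ := dif_pos ⟨hp, hpN⟩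
    rw [e]
    rfl
  refine ⟨{ K := K, ι := algebraMap K ℂ, εK := εK, hε := fun y => rfl, α := α,
            hα := fun p hp hpN => ?_, conj := fun σ => ?_ }⟩
  · rw [hα p hp hpN]; rfl
  · -- the conjugate form
    obtain ⟨τ, hτ'⟩ := exists_ringEquiv_extending_ringHom K hnorm σ
    obtain ⟨H, hHc, hHq⟩ := exists_conj_one hM h4N (τ : ℂ →+* ℂ) hfc
    have hg : ∀ n : ℕ, qCoeff ⇑hHc.toCuspForm n = τ (a n) := fun n => by
      unfold qCoeff
      rw [IsCuspFun.coe_toCuspForm, hHq, PowerSeries.coeff_map]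
      rfl
    refine ⟨4 * N, inferInstance, hN4, hHc.toCuspForm, ⟨?_, ?_⟩, ?_⟩
    · show qCoeff ⇑hHc.toCuspForm 1 = 1
      rw [hg, h1, map_one]
    · intro p hp hp4 n
      have hpN : ¬ p ∣ N := fun h => hp4 (dvd_trans h hN4)
      have hcop : p.Coprime (4 * N) := (Nat.Prime.coprime_iff_not_dvd hp).mpr hp4
      have hχ : (DirichletCharacter.changeLevel hN4
          (εK.ringHomComp (σ.comp (algebraMap (𝓞 K) K)))) ((p : ℕ) : ZMod (4 * N)) =
          τ (ε ((p : ℕ) : ZMod N)) := by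
        have e1 := DirichletCharacter.changeLevel_eq_cast_of_dvd
          (εK.ringHomComp (σ.comp (algebraMap (𝓞 K) K))) hN4 (ZMod.unitOfCoprime p hcop)
        rw [ZMod.coe_unitOfCoprime, ZMod.cast_natCast hN4] at e1
        rw [e1, MulChar.ringHomComp_apply, hτ' _ (mem_KK_of_mem_genSet N ε a (hεmem _))]
        rfl
      show qCoeff ⇑hHc.toCuspForm (p * n) + _ * (if p ∣ n then qCoeff ⇑hHc.toCuspForm (n / p) else 0)
        = qCoeff ⇑hHc.toCuspForm p * qCoeff ⇑hHc.toCuspForm n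
      rw [hg, hg, hg, hg, hχ]
      have := congrArg τ (hT p hp hpN n)
      rw [map_add, map_mul, map_mul, apply_ite τ, map_zero] at this
      exact this
    · intro p hp hp4
      have hpN : ¬ p ∣ N := fun h => hp4 (dvd_trans h hN4)
      rw [hg, hα p hp hpN, hτ' _ (mem_KK_of_mem_genSet N ε a (hamem p ⟨hp, hpN⟩))]

/-- **(I1 + I2)**: `DS.AlgStmt` from the spanning clause of `W2Int`. -/
theorem algStmt_of_spanInt (h : ∀ (M : ℕ) [NeZero M], SpanInt M) : DS.AlgStmt :=
  fun N _ ε f hf => nonempty_algPackage (h (4 * N)) ε f hf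

/-- `DS.AlgStmt` from `Iface.W2Int`. -/
theorem algStmt_of_W2Int (h : ∀ (M : ℕ) [NeZero M], Iface.W2Int M) : DS.AlgStmt :=
  algStmt_of_spanInt fun M _ => spanInt_of_W2Int (h M)

end Fermat.Agent.S48lib.Conj
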