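/-
S48lib / Conj / Div  (helper1)

Division of holomorphic functions on `ℍ` when the square of the quotient is holomorphic:
if `G₁² = G₂ Θ²` with `Θ ≢ 0`, then `G₁ / Θ` extends to a holomorphic `H` with `H Θ = G₁`,
`H² = G₂` (orders of meromorphic functions; Mathlib's normal form).  Also the cancellation law
for holomorphic functions on `ℍ`.
-/
import Mathlib

set_option autoImplicit false

noncomputable section

namespace Fermat.Agent.S48lib.Conj

open UpperHalfPlane Filter Topology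
open scoped Manifold

/-- the open upper half plane as a subset of `ℂ` -/
def UHP : Set ℂ := {z : ℂ | 0 < z.im}

theorem isOpen_UHP : IsOpen UHP := isOpen_upperHalfPlaneSet

theorem isPreconnected_UHP : IsPreconnected UHP :=
  (convex_halfSpace_im_gt 0).isPreconnected

theorem analyticOnNhd_of_mdiff {F : ℍ → ℂ} (hF : MDiff F) :
    AnalyticOnNhd ℂ (F ∘ ofComplex) UHP :=
  (UpperHalfPlane.mdifferentiable_iff.mp hF).analyticOnNhd isOpen_UHP

theorem comp_ofComplex_coe (F : ℍ → ℂ) (τ : ℍ) : (F ∘ ofComplex) (τ : ℂ) = F τ := by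
  simp [ofComplex_apply]

/-- a holomorphic function on `ℍ` which vanishes near one point vanishes identically -/
theorem eq_zero_of_eventually_eq_zero {F : ℍ → ℂ} (hF : MDiff F) {x : ℂ} (hx : x ∈ UHP)
    (h : (F ∘ ofComplex) =ᶠ[𝓝 x] 0) : F = 0 := by
  have h1 := (analyticOnNhd_of_mdiff hF).eqOn_zero_of_preconnected_of_eventuallyEq_zero
    isPreconnected_UHP hx h
  ext τ
  have := h1 (show (τ : ℂ) ∈ UHP from τ.im_pos)
  rwa [comp_ofComplex_coe] at this

/-- a nonzero holomorphic function on `ℍ` is nonzero on a punctured neighbourhood of every point -/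
theorem eventually_ne_zero {F : ℍ → ℂ} (hF : MDiff F) (hF0 : F ≠ 0) {x : ℂ} (hx : x ∈ UHP) :
    ∀ᶠ z in 𝓝[≠] x, (F ∘ ofComplex) z ≠ 0 := by
  rcases (analyticOnNhd_of_mdiff hF x hx).eventually_eq_zero_or_eventually_ne_zero with h | h
  · exact absurd (eq_zero_of_eventually_eq_zero hF hx h) hF0
  · exact h

/-- cancellation: `F₁ Θ = F₂ Θ`, `Θ ≢ 0` ⇒ `F₁ = F₂`. -/
theorem eq_of_mul_eq_mul {F₁ F₂ Θ : ℍ → ℂ} (h1 : MDiff F₁) (h2 : MDiff F₂) (hΘ : MDiff Θ)
    (hΘ0 : Θ ≠ 0) (h : F₁ * Θ = F₂ * Θ) : F₁ = F₂ := by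
  have hd : MDiff (F₁ - F₂) := h1.sub h2
  rw [← sub_eq_zero]
  have hx : (UpperHalfPlane.I : ℂ) ∈ UHP := UpperHalfPlane.I.im_pos
  have hne := eventually_ne_zero hΘ hΘ0 hx
  have han := analyticOnNhd_of_mdiff hd _ hx
  -- `F₁ - F₂` vanishes on a punctured neighbourhood, hence (continuity) on a neighbourhood
  have h0 : ((F₁ - F₂) ∘ ofComplex) =ᶠ[𝓝[≠] (UpperHalfPlane.I : ℂ)] 0 := by
    have hU : ∀ᶠ z in 𝓝[≠] (UpperHalfPlane.I : ℂ), z ∈ UHP :=
      nhdsWithin_le_nhds (isOpen_UHP.mem_nhds hx)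
    filter_upwards [hne, hU] with z hz hzU
    have e := congrFun h (ofComplex z)
    simp only [Pi.mul_apply] at e
    have : (F₁ (ofComplex z) - F₂ (ofComplex z)) * Θ (ofComplex z) = 0 := by
      rw [sub_mul, e, sub_self]
    rcases mul_eq_zero.mp this with h3 | h3
    · simpa using h3
    · exact absurd h3 hz
  have h1' : ((F₁ - F₂) ∘ ofComplex) =ᶠ[𝓝 (UpperHalfPlane.I : ℂ)] 0 :=
    (han.continuousAt.eventuallyEq_nhds_iff_eventuallyEq_nhdsNE continuousAt_const).mp h0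
  exact eq_zero_of_eventually_eq_zero hd hx h1'

/-- **Division**: `G₁² = G₂ Θ²`, `Θ ≢ 0` ⇒ there is a holomorphic `H` with `H Θ = G₁`, `H² = G₂`. -/
theorem exists_div_of_sq {Θ G₁ G₂ : ℍ → ℂ} (hΘ : MDiff Θ) (hΘ0 : Θ ≠ 0) (h1 : MDiff G₁)
    (h2 : MDiff G₂) (hsq : G₁ * G₁ = G₂ * (Θ * Θ)) :
    ∃ H : ℍ → ℂ, MDiff H ∧ H * Θ = G₁ ∧ H * H = G₂ := by
  set t : ℂ → ℂ := Θ ∘ ofComplex with ht
  set g₁ : ℂ → ℂ := G₁ ∘ ofComplex with hg₁
  set g₂ : ℂ → ℂ := G₂ ∘ ofComplex with hg₂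
  have hta : AnalyticOnNhd ℂ t UHP := analyticOnNhd_of_mdiff hΘ
  have hg₁a : AnalyticOnNhd ℂ g₁ UHP := analyticOnNhd_of_mdiff h1
  have hg₂a : AnalyticOnNhd ℂ g₂ UHP := analyticOnNhd_of_mdiff h2
  set φ : ℂ → ℂ := g₁ / t with hφ
  have hφm : MeromorphicOn φ UHP := hg₁a.meromorphicOn.div hta.meromorphicOn
  set h : ℂ → ℂ := toMeromorphicNFOn φ UHP with hh
  have hsq' : ∀ z : ℂ, g₁ z * g₁ z = g₂ z * (t z * t z) := fun z => by
    have := congrFun hsq (ofComplex z)
    simpa [ht, hg₁, hg₂] using this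
  -- `φ² = g₂` and `φ t = g₁` away from the zeros of `t`
  have hφ2 : ∀ x ∈ UHP, (φ ^ 2) =ᶠ[𝓝[≠] x] g₂ := by
    intro x hx
    filter_upwards [eventually_ne_zero hΘ hΘ0 hx] with z hz
    have hz' : t z ≠ 0 := hz
    simp only [Pi.pow_apply, hφ, Pi.div_apply]
    rw [div_pow, sq, sq, hsq' z]
    field_simp
  -- nonnegative order
  have hord : ∀ x ∈ UHP, 0 ≤ meromorphicOrderAt φ x := by
    intro x hx
    have e1 : meromorphicOrderAt (φ ^ 2) x = (2 : ℕ) * meromorphicOrderAt φ x :=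
      meromorphicOrderAt_pow (hφm x hx)
    have e2 : meromorphicOrderAt (φ ^ 2) x = meromorphicOrderAt g₂ x :=
      meromorphicOrderAt_congr (hφ2 x hx)
    have e3 : 0 ≤ meromorphicOrderAt g₂ x := (hg₂a x hx).meromorphicOrderAt_nonneg
    rw [← e2, e1] at e3
    cases hm : meromorphicOrderAt φ x with
    | top => exact le_top
    | coe n =>
      rw [hm] at e3
      have : (0 : WithTop ℤ) ≤ ((2 * n : ℤ) : WithTop ℤ) := by
        have e4 : ((2 : ℕ) : WithTop ℤ) * (n : WithTop ℤ) = ((2 * n : ℤ) : WithTop ℤ) := by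
          norm_cast
        rw [← e4]; exact e3
      have h3 : (0 : ℤ) ≤ 2 * n := by exact_mod_cast this
      have h4 : (0 : ℤ) ≤ n := by omega
      exact_mod_cast h4
  have hhan : ∀ x ∈ UHP, AnalyticAt ℂ h x := by
    intro x hx
    have hnf : MeromorphicNFAt h x := meromorphicNFOn_toMeromorphicNFOn φ UHP hx
    rw [← hnf.meromorphicOrderAt_nonneg_iff_analyticAt, hh,
      meromorphicOrderAt_toMeromorphicNFOn hφm hx]
    exact hord x hx
  have hheq : ∀ x ∈ UHP, h =ᶠ[𝓝[≠] x] φ := fun x hx =>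
    hφm.toMeromorphicNFOn_eq_self_on_nhdsNE hx
  -- `h t = g₁` and `h h = g₂` on `UHP`
  have hmul : ∀ x ∈ UHP, h x * t x = g₁ x := by
    intro x hx
    have e : (h * t) =ᶠ[𝓝[≠] x] g₁ := by
      filter_upwards [hheq x hx, eventually_ne_zero hΘ hΘ0 hx] with z hz hz0
      have hz' : t z ≠ 0 := hz0
      simp only [Pi.mul_apply, hz, hφ, Pi.div_apply]
      field_simp
    have hc1 : ContinuousAt (h * t) x := ((hhan x hx).mul (hta x hx)).continuousAt
    have hc2 : ContinuousAt g₁ x := (hg₁a x hx).continuousAt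
    exact ((hc1.eventuallyEq_nhds_iff_eventuallyEq_nhdsNE hc2).mp e).eq_of_nhds
  have hmul2 : ∀ x ∈ UHP, h x * h x = g₂ x := by
    intro x hx
    have e : (h * h) =ᶠ[𝓝[≠] x] g₂ := by
      filter_upwards [hheq x hx, hφ2 x hx] with z hz hz2
      simp only [Pi.mul_apply, hz]
      simp only [Pi.pow_apply] at hz2
      rw [← hz2, sq]
    have hc1 : ContinuousAt (h * h) x := ((hhan x hx).mul (hhan x hx)).continuousAt
    have hc2 : ContinuousAt g₂ x := (hg₂a x hx).continuousAt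
    exact ((hc1.eventuallyEq_nhds_iff_eventuallyEq_nhdsNE hc2).mp e).eq_of_nhds
  refine ⟨fun τ => h (τ : ℂ), ?_, ?_, ?_⟩
  · rw [UpperHalfPlane.mdifferentiable_iff]
    have hEq : Set.EqOn ((fun τ : ℍ => h (τ : ℂ)) ∘ ofComplex) h UHP := by
      intro z hz
      simp only [Function.comp_apply]
      rw [ofComplex_apply_of_im_pos hz]
    refine DifferentiableOn.congr ?_ hEq
    exact fun z hz => (hhan z hz).differentiableAt.differentiableWithinAt
  · ext τ
    have := hmul (τ : ℂ) τ.im_pos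
    simp only [Pi.mul_apply]
    rw [ht, hg₁, comp_ofComplex_coe, comp_ofComplex_coe] at this
    exact this
  · ext τ
    have := hmul2 (τ : ℂ) τ.im_pos
    simp only [Pi.mul_apply]
    rw [hg₂, comp_ofComplex_coe] at this
    exact this

end Fermat.Agent.S48lib.Conj
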