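/-
S48lib / Conj / Final  (helper1)

**`DS.AlgStmt`, unconditionally**: the spanning statement `SpanInt M` (`1 < M`) comes from block P2
(`X1/Forms`: period lattice ⇒ finitely generated Hecke algebra ⇒ `span_coeffFun_fg`; `Aut(ℂ)`-stability
of the `q`-expansions of `S₂(Γ₁(M))` via the Fricke generator and the cusp lift `f ↦ f E₄E₆/Δ`), and
`Conj/Main` turns `SpanInt (4 N)` into the algebraic package of a weight one eigenform of level `N`.
-/
import Mathlib
import Fermat.Agent.S48lib.Conj.Main
import Fermat.Agent.S48lib.X1.Forms.Main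
import Fermat.Agent.S48lib.X1.Forms.CuspUp

set_option autoImplicit false

noncomputable section

namespace Fermat.Agent.S48lib.Conj

/-- `S₂(Γ₁(M))` is spanned by the forms with integral `q`-expansion (`M ≥ 2`). -/
theorem spanInt_of_one_lt {M : ℕ} [NeZero M] (hM : 1 < M) : SpanInt M :=
  X1.Forms.span_intLattice_eq_top_of_upStmt hM (X1.Forms.upStmt M)

/-- **(I1 + I2) `DS.AlgStmt`**: number field, integrality and Galois conjugates of weight one
eigenforms. -/
theorem algStmt : DS.AlgStmt := fun N _ ε f hf =>
  haveI : NeZero (4 * N) := ⟨Nat.mul_ne_zero (by norm_num) (NeZero.ne N)⟩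
  nonempty_algPackage
    (spanInt_of_one_lt (by have := Nat.pos_of_ne_zero (NeZero.ne N); omega)) ε f hf

end Fermat.Agent.S48lib.Conj
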