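/-
S48lib / Conj / Forms  (helper1)

Function-level cusp/modular forms on `Γ₁(M)` (`IsCuspFun`, `IsModFun`), the bundling
`IsCuspFun.toCuspForm`, products, and the `q`-expansion of a product.
-/
import Mathlib
import Fermat.Prelude.Def_FLTPrelim_Modularity
import Fermat.Agent.S48lib.W1.QExp
import Fermat.Agent.S48lib.W1.HeckeT

set_option autoImplicit false

noncomputable section

namespace Fermat.Agent.S48lib.Conj

open UpperHalfPlane CongruenceSubgroup ModularForm ModularFormClass Matrix.SpecialLinearGroup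
open scoped MatrixGroups ModularForm Manifold
open Fermat.Agent.S48lib.W1 (IsQExp)

/-- holomorphic, weight `k` invariant under `Γ₁(M)`, zero at all cusps -/
structure IsCuspFun (M : ℕ) (k : ℤ) (F : ℍ → ℂ) : Prop where
  hol : MDiff F
  inv : ∀ γ : SL(2, ℤ), γ ∈ Gamma1 M → F ∣[k] γ = F
  zero : ∀ γ : SL(2, ℤ), IsZeroAtImInfty (F ∣[k] γ)

/-- holomorphic, weight `k` invariant under `Γ₁(M)`, bounded at all cusps -/
structure IsModFun (M : ℕ) (k : ℤ) (F : ℍ → ℂ) : Prop where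
  hol : MDiff F
  inv : ∀ γ : SL(2, ℤ), γ ∈ Gamma1 M → F ∣[k] γ = F
  bdd : ∀ γ : SL(2, ℤ), IsBoundedAtImInfty (F ∣[k] γ)

theorem Gamma1_le_of_dvd {N M : ℕ} (h : N ∣ M) : Gamma1 M ≤ Gamma1 N := by
  intro γ hγ
  rw [Gamma1_mem] at hγ ⊢
  obtain ⟨h1, h2, h3⟩ := hγ
  have key : ∀ x : ℤ, ∀ y : ℤ, ((x : ℤ) : ZMod M) = ((y : ℤ) : ZMod M) →
      ((x : ℤ) : ZMod N) = ((y : ℤ) : ZMod N) := by
    intro x y hxy
    rw [ZMod.intCast_eq_intCast_iff_dvd_sub] at hxy ⊢
    exact dvd_trans (Int.natCast_dvd_natCast.mpr h) hxy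
  refine ⟨?_, ?_, ?_⟩
  · have := key (γ 0 0) 1 (by simpa using h1); simpa using this
  · have := key (γ 1 1) 1 (by simpa using h2); simpa using this
  · have := key (γ 1 0) 0 (by simpa using h3); simpa using this

variable {M : ℕ} {k : ℤ}

theorem isCusp_SL2Z_smul_infty (N : ℕ) [NeZero N] (γ : SL(2, ℤ)) :
    IsCusp ((mapGL ℝ γ : GL (Fin 2) ℝ) • (OnePoint.infty : OnePoint ℝ))
      (Gamma1 N : Subgroup (GL (Fin 2) ℝ)) := by
  rw [Subgroup.IsArithmetic.isCusp_iff_isCusp_SL2Z, isCusp_SL2Z_iff']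
  exact ⟨γ, rfl⟩

/-- a cusp form on `Γ₁(N)` is a function-level cusp form on `Γ₁(M)` for `N ∣ M`. -/
theorem IsCuspFun.of_cuspForm {N : ℕ} [NeZero N] (f : CuspForm (Gamma1 N : Subgroup (GL (Fin 2) ℝ)) k)
    (h : N ∣ M) : IsCuspFun M k ⇑f where
  hol := CuspFormClass.holo f
  inv := fun γ hγ =>
    (W1.isG1Inv_of_slashInvariantFormClass f) γ (Gamma1_le_of_dvd h hγ)
  zero := fun γ => by
    have h1 := CuspFormClass.zero_at_cusps f (isCusp_SL2Z_smul_infty N γ)
    exact h1 (mapGL ℝ γ) rfl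

theorem IsCuspFun.isModFun {F : ℍ → ℂ} (h : IsCuspFun M k F) : IsModFun M k F where
  hol := h.hol
  inv := h.inv
  bdd := fun γ => (h.zero γ).isBoundedAtImInfty

theorem IsCuspFun.mono {N : ℕ} {F : ℍ → ℂ} (h : IsCuspFun N k F) (hd : N ∣ M) : IsCuspFun M k F where
  hol := h.hol
  inv := fun γ hγ => h.inv γ (Gamma1_le_of_dvd hd hγ)
  zero := h.zero

theorem IsModFun.mono {N : ℕ} {F : ℍ → ℂ} (h : IsModFun N k F) (hd : N ∣ M) : IsModFun M k F where
  hol := h.hol
  inv := fun γ hγ => h.inv γ (Gamma1_le_of_dvd hd hγ)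
  bdd := h.bdd

/-- the bundled cusp form of a function-level one -/
def IsCuspFun.toCuspForm [NeZero M] {F : ℍ → ℂ} (h : IsCuspFun M k F) :
    CuspForm (Gamma1 M : Subgroup (GL (Fin 2) ℝ)) k where
  toFun := F
  slash_action_eq' := fun A hA => by
    obtain ⟨γ, hγ, rfl⟩ := hA
    exact h.inv γ hγ
  holo' := h.hol
  zero_at_cusps' := fun {c} hc => by
    rw [Subgroup.IsArithmetic.isCusp_iff_isCusp_SL2Z] at hc
    rw [OnePoint.isZeroAt_iff_forall_SL2Z hc]
    exact fun γ _ => h.zero γ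

@[simp] theorem IsCuspFun.coe_toCuspForm [NeZero M] {F : ℍ → ℂ} (h : IsCuspFun M k F) :
    ⇑h.toCuspForm = F := rfl

/-- product of a cusp function and a modular function -/
theorem IsCuspFun.mul {k₁ k₂ : ℤ} {F G : ℍ → ℂ} (hF : IsCuspFun M k₁ F) (hG : IsModFun M k₂ G) :
    IsCuspFun M (k₁ + k₂) (F * G) where
  hol := hF.hol.mul hG.hol
  inv := fun γ hγ => by rw [mul_slash_SL2, hF.inv γ hγ, hG.inv γ hγ]
  zero := fun γ => by
    rw [mul_slash_SL2]
    exact (hF.zero γ).mul_boundedAtFilter (hG.bdd γ)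

theorem periodic_of_slash_T {F : ℍ → ℂ} (h : F ∣[k] ModularGroup.T = F) :
    Function.Periodic (F ∘ ofComplex) 1 := by
  intro w
  by_cases hw : 0 < w.im
  · have hw1 : 0 < (w + 1).im := by simpa using hw
    simp only [Function.comp_apply, ofComplex_apply_of_im_pos hw, ofComplex_apply_of_im_pos hw1]
    have h1 := congrFun h ⟨w, hw⟩
    rw [SL_slash_apply, modular_T_smul, ModularGroup.denom_apply, ModularGroup.coe_T] at h1
    simp only [Matrix.of_apply, Matrix.cons_val', Matrix.cons_val_zero, Matrix.cons_val_one,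
      Int.cast_zero, zero_mul, Int.cast_one, zero_add, one_zpow, mul_one] at h1
    rw [← h1]
    congr 1
    ext
    simp [add_comm]
  · have hw1 : ¬ 0 < (w + 1).im := by simpa using hw
    simp only [Function.comp_apply]
    rw [ofComplex_apply_of_im_nonpos (not_lt.mp hw), ofComplex_apply_of_im_nonpos (not_lt.mp hw1)]

theorem T_mem_Gamma1' (N : ℕ) : ModularGroup.T ∈ Gamma1 N := by
  rw [Gamma1_mem]
  simp [ModularGroup.coe_T]

theorem IsModFun.isQExp {F : ℍ → ℂ} (h : IsModFun M k F) : IsQExp F where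
  per := periodic_of_slash_T (h.inv _ (T_mem_Gamma1' M))
  hol := h.hol
  bdd := by
    have := h.bdd 1
    rwa [SlashAction.slash_one] at this

theorem IsCuspFun.isQExp {F : ℍ → ℂ} (h : IsCuspFun M k F) : IsQExp F := h.isModFun.isQExp

theorem isQExp_mul {f g : ℍ → ℂ} (hf : IsQExp f) (hg : IsQExp g) : IsQExp (f * g) where
  per := fun w => by
    have h1 := hf.per w
    have h2 := hg.per w
    simp only [Function.comp_apply, Pi.mul_apply] at h1 h2 ⊢
    rw [h1, h2]
  hol := hf.hol.mul hg.hol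
  bdd := hf.bdd.mul hg.bdd

theorem qExpansion_mul_of_isQExp {f g : ℍ → ℂ} (hf : IsQExp f) (hg : IsQExp g) :
    qExpansion 1 (f * g) = qExpansion 1 f * qExpansion 1 g :=
  qExpansion_mul hf.analyticAt hg.analyticAt

/-- `q`-expansion principle in `PowerSeries` form -/
theorem isQExp_ext_qExpansion {f g : ℍ → ℂ} (hf : IsQExp f) (hg : IsQExp g)
    (h : qExpansion 1 f = qExpansion 1 g) : f = g :=
  hf.ext hg fun n => by unfold qCoeff; rw [h]

end Fermat.Agent.S48lib.Conj
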