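/-
S48lib / Conj / Gamma14  (helper1)

`Γ₁(4)` is generated by `T = [[1,1],[0,1]]` and `B = [[1,0],[4,1]]` (Euclidean descent on the
bottom row).
-/
import Mathlib

set_option autoImplicit false

namespace Fermat.Agent.S48lib.Conj

open Matrix CongruenceSubgroup
open scoped MatrixGroups

/-- `B = [[1,0],[4,1]]`. -/
def B4 : SL(2, ℤ) := ⟨!![1, 0; 4, 1], by simp [Matrix.det_fin_two_of]⟩

theorem coe_B4 : (↑B4 : Matrix (Fin 2) (Fin 2) ℤ) = !![1, 0; 4, 1] := rfl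

theorem coe_B4_inv : (↑(B4⁻¹) : Matrix (Fin 2) (Fin 2) ℤ) = !![1, 0; -4, 1] := by
  rw [Matrix.SpecialLinearGroup.coe_inv, coe_B4, Matrix.adjugate_fin_two_of, neg_zero]

theorem B4_mem : B4 ∈ Gamma1 4 := by
  rw [Gamma1_mem, coe_B4]
  simp
  decide

theorem T_mem_Gamma1 (N : ℕ) : ModularGroup.T ∈ Gamma1 N := by
  rw [Gamma1_mem]
  simp [ModularGroup.coe_T]

theorem mul_T_row (γ : SL(2, ℤ)) :
    (γ * ModularGroup.T) 1 0 = γ 1 0 ∧ (γ * ModularGroup.T) 1 1 = γ 1 0 + γ 1 1 := by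
  rw [Matrix.SpecialLinearGroup.coe_mul, ModularGroup.coe_T, Matrix.mul_apply, Matrix.mul_apply,
    Fin.sum_univ_two, Fin.sum_univ_two]
  simp

theorem mul_T_inv_row (γ : SL(2, ℤ)) :
    (γ * ModularGroup.T⁻¹) 1 0 = γ 1 0 ∧ (γ * ModularGroup.T⁻¹) 1 1 = γ 1 1 - γ 1 0 := by
  rw [Matrix.SpecialLinearGroup.coe_mul, ModularGroup.coe_T_inv, Matrix.mul_apply, Matrix.mul_apply,
    Fin.sum_univ_two, Fin.sum_univ_two]
  simp
  ring

theorem mul_B4_row (γ : SL(2, ℤ)) :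
    (γ * B4) 1 0 = γ 1 0 + 4 * γ 1 1 ∧ (γ * B4) 1 1 = γ 1 1 := by
  rw [Matrix.SpecialLinearGroup.coe_mul, coe_B4, Matrix.mul_apply, Matrix.mul_apply,
    Fin.sum_univ_two, Fin.sum_univ_two]
  simp
  ring

theorem mul_B4_inv_row (γ : SL(2, ℤ)) :
    (γ * B4⁻¹) 1 0 = γ 1 0 - 4 * γ 1 1 ∧ (γ * B4⁻¹) 1 1 = γ 1 1 := by
  rw [Matrix.SpecialLinearGroup.coe_mul, coe_B4_inv, Matrix.mul_apply, Matrix.mul_apply,
    Fin.sum_univ_two, Fin.sum_univ_two]
  simp
  ring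

theorem Gamma1_four_entries {γ : SL(2, ℤ)} (hγ : γ ∈ Gamma1 4) :
    γ 0 0 % 4 = 1 ∧ γ 1 1 % 4 = 1 ∧ γ 1 0 % 4 = 0 := by
  rw [Gamma1_mem] at hγ
  obtain ⟨h1, h2, h3⟩ := hγ
  have e1 : ((γ 0 0 : ℤ) : ZMod 4) = ((1 : ℤ) : ZMod 4) := by simpa using h1
  have e2 : ((γ 1 1 : ℤ) : ZMod 4) = ((1 : ℤ) : ZMod 4) := by simpa using h2
  have e3 : ((γ 1 0 : ℤ) : ZMod 4) = ((0 : ℤ) : ZMod 4) := by simpa using h3
  rw [ZMod.intCast_eq_intCast_iff] at e1 e2 e3
  unfold Int.ModEq at e1 e2 e3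
  norm_num at e1 e2 e3
  exact ⟨e1, e2, by omega⟩

/-- `Γ₁(4)` is generated by `T` and `B`. -/
theorem mem_closure_of_mem_Gamma1_four :
    ∀ (n : ℕ) (γ : SL(2, ℤ)), γ ∈ Gamma1 4 → (γ 1 0).natAbs + (γ 1 1).natAbs = n →
      γ ∈ Subgroup.closure ({ModularGroup.T, B4} : Set SL(2, ℤ)) := by
  intro n
  induction n using Nat.strong_induction_on with
  | _ n ih =>
    intro γ hγ hn
    have hT : ModularGroup.T ∈ Subgroup.closure ({ModularGroup.T, B4} : Set SL(2, ℤ)) :=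
      Subgroup.subset_closure (by simp)
    have hB : B4 ∈ Subgroup.closure ({ModularGroup.T, B4} : Set SL(2, ℤ)) :=
      Subgroup.subset_closure (by simp)
    obtain ⟨ha, hd, hc⟩ := Gamma1_four_entries hγ
    have hdet : γ 0 0 * γ 1 1 - γ 0 1 * γ 1 0 = 1 := by
      have := γ.det_coe
      rw [Matrix.det_fin_two] at this
      exact this
    by_cases hc0 : γ 1 0 = 0
    · -- `γ = T ^ b`
      rw [hc0, mul_zero, sub_zero] at hdet
      have hd1 : γ 1 1 = 1 := by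
        rcases Int.eq_one_or_neg_one_of_mul_eq_one' hdet with ⟨_, h⟩ | ⟨_, h⟩
        · exact h
        · rw [h] at hd; omega
      have ha1 : γ 0 0 = 1 := by rw [hd1, mul_one] at hdet; exact hdet
      have : γ = ModularGroup.T ^ (γ 0 1) := by
        ext i j
        rw [ModularGroup.coe_T_zpow]
        fin_cases i <;> fin_cases j <;> simp [ha1, hd1, hc0]
      rw [this]
      exact Subgroup.zpow_mem _ hT _
    · -- descent
      have hd0 : γ 1 1 ≠ 0 := by intro h; rw [h] at hd; omega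
      have hne : 2 * (γ 1 1).natAbs ≠ (γ 1 0).natAbs := by omega
      rcases lt_or_gt_of_ne hne with hlt | hgt
      · -- `2|d| < |c|`: reduce `c` by `± 4 d`
        have key : ∃ δ : SL(2, ℤ), δ ∈ Subgroup.closure ({ModularGroup.T, B4} : Set SL(2, ℤ)) ∧
            δ ∈ Gamma1 4 ∧ ((γ * δ) 1 0).natAbs < (γ 1 0).natAbs ∧ (γ * δ) 1 1 = γ 1 1 := by
          by_cases hs : 0 < γ 1 0 * γ 1 1
          · refine ⟨B4⁻¹, Subgroup.inv_mem _ hB, Subgroup.inv_mem _ B4_mem, ?_,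
              (mul_B4_inv_row γ).2⟩
            rw [(mul_B4_inv_row γ).1]
            rcases lt_or_gt_of_ne hc0 with h1 | h1 <;> rcases lt_or_gt_of_ne hd0 with h2 | h2 <;>
              first | omega | (exfalso; nlinarith)
          · refine ⟨B4, hB, B4_mem, ?_, (mul_B4_row γ).2⟩
            rw [(mul_B4_row γ).1]
            rcases lt_or_gt_of_ne hc0 with h1 | h1 <;> rcases lt_or_gt_of_ne hd0 with h2 | h2 <;>
              first | omega | (exfalso; nlinarith)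
        obtain ⟨δ, hδ, hδ1, hlt', heq⟩ := key
        have := ih _ (by rw [← hn, heq]; omega) (γ * δ) (Subgroup.mul_mem _ hγ hδ1) rfl
        have h2 := Subgroup.mul_mem _ this (Subgroup.inv_mem _ hδ)
        rwa [mul_inv_cancel_right] at h2
      · -- `|c| < 2|d|`: reduce `d` by `± c`
        have key : ∃ δ : SL(2, ℤ), δ ∈ Subgroup.closure ({ModularGroup.T, B4} : Set SL(2, ℤ)) ∧
            δ ∈ Gamma1 4 ∧ ((γ * δ) 1 1).natAbs < (γ 1 1).natAbs ∧ (γ * δ) 1 0 = γ 1 0 := by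
          by_cases hs : 0 < γ 1 0 * γ 1 1
          · refine ⟨ModularGroup.T⁻¹, Subgroup.inv_mem _ hT, Subgroup.inv_mem _ (T_mem_Gamma1 4), ?_,
              (mul_T_inv_row γ).1⟩
            rw [(mul_T_inv_row γ).2]
            rcases lt_or_gt_of_ne hc0 with h1 | h1 <;> rcases lt_or_gt_of_ne hd0 with h2 | h2 <;>
              first | omega | (exfalso; nlinarith)
          · refine ⟨ModularGroup.T, hT, T_mem_Gamma1 4, ?_, (mul_T_row γ).1⟩
            rw [(mul_T_row γ).2]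
            rcases lt_or_gt_of_ne hc0 with h1 | h1 <;> rcases lt_or_gt_of_ne hd0 with h2 | h2 <;>
              first | omega | (exfalso; nlinarith)
        obtain ⟨δ, hδ, hδ1, hlt', heq⟩ := key
        have := ih _ (by rw [← hn, heq]; omega) (γ * δ) (Subgroup.mul_mem _ hγ hδ1) rfl
        have h2 := Subgroup.mul_mem _ this (Subgroup.inv_mem _ hδ)
        rwa [mul_inv_cancel_right] at h2

theorem Gamma1_four_le_closure :
    Gamma1 4 ≤ Subgroup.closure ({ModularGroup.T, B4} : Set SL(2, ℤ)) :=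
  fun γ hγ => mem_closure_of_mem_Gamma1_four _ γ hγ rfl

end Fermat.Agent.S48lib.Conj
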