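/-
S48lib / Conj / Theta  (helper1)

The weight-one multiplier `Θ(z) = θ(2z)² = (∑ q^{n²})²` on `Γ₁(4)`:
* `Th_slash_of_mem`   : `Θ ∣[1] γ = Θ` for `γ ∈ Γ₁(4)` (generators `T`, `B4` + Mathlib's `S`, `T²` laws);
* `isBoundedAtImInfty_Th_slash` : every `SL₂(ℤ)`-translate is bounded at `i∞`
  (`‖θ(u+iv)‖ ≤ θ(iv)`, `θ(iv)² ≤ 4 max(1, 1/v)`, `4`-periodicity of the translates);
* `qExpansion_Th`     : the `q`-expansion is `ThZ ∈ ℤ[[q]]`, a unit (`isUnit_ThZ`).
-/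
import Mathlib
import Fermat.Prelude.Def_FLTPrelim_Modularity
import Fermat.Agent.S48lib.Conj.Gamma14
import Fermat.Agent.S48lib.W1.QExp
import Fermat.Agent.S48lib.Conj.Forms

set_option autoImplicit false

noncomputable section

namespace Fermat.Agent.S48lib.Conj

open UpperHalfPlane CongruenceSubgroup ModularForm ModularFormClass
open Complex hiding I
local notation "I" => Complex.I
open scoped MatrixGroups ModularForm Manifold Real
open Fermat.Agent.S48lib.W1 (IsQExp)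

/-- `θ(-1/τ)² = (-iτ) θ(τ)²`. -/
theorem jacobiTheta_sq_S {τ : ℂ} (hτ : 0 < τ.im) :
    jacobiTheta (-1 / τ) ^ 2 = (-I * τ) * jacobiTheta τ ^ 2 := by
  have h := jacobiTheta_S_smul ⟨τ, hτ⟩
  rw [UpperHalfPlane.modular_S_smul] at h
  have e : ((UpperHalfPlane.mk (-(↑(⟨τ, hτ⟩ : ℍ) : ℂ))⁻¹ (⟨τ, hτ⟩ : ℍ).im_inv_neg_coe_pos : ℍ) : ℂ)
      = -1 / τ := by
    show (-τ)⁻¹ = -1 / τ
    rw [inv_neg, neg_div, one_div]
  rw [e] at h
  rw [h, mul_pow]
  congr 1
  have : (1 / 2 : ℂ) = ((2 : ℕ) : ℂ)⁻¹ := by norm_num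
  rw [this]
  exact Complex.cpow_nat_inv_pow _ two_ne_zero

/-- `Θ(z) = θ(2z)²`. -/
def Th (z : ℍ) : ℂ := jacobiTheta (2 * (z : ℂ)) ^ 2

theorem Th_slash_T : Th ∣[(1 : ℤ)] ModularGroup.T = Th := by
  ext z
  rw [SL_slash_apply, modular_T_smul]
  rw [ModularGroup.denom_apply]
  simp only [ModularGroup.coe_T]
  simp only [Th, coe_vadd, ofReal_one]
  rw [show (2 : ℂ) * (1 + (z : ℂ)) = 2 + 2 * z by ring, jacobiTheta_two_add]
  simp

theorem Th_slash_B4 : Th ∣[(1 : ℤ)] B4 = Th := by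
  ext z
  rw [SL_slash_apply]
  have hd : denom (B4 : SL(2, ℤ)) z = 4 * (z : ℂ) + 1 := by
    rw [ModularGroup.denom_apply, coe_B4]
    simp
  have hz : ((B4 • z : ℍ) : ℂ) = (z : ℂ) / (4 * z + 1) := by
    rw [coe_specialLinearGroup_apply]
    simp [B4]
  rw [hd]
  simp only [Th, hz]
  set w : ℂ := 2 * (z : ℂ) with hw
  have hwim : 0 < w.im := by
    rw [hw]; simp [z.im_pos]
  have hw0 : w ≠ 0 := fun h => by rw [h] at hwim; simp at hwim
  -- τ₁ = -1/w - 2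
  have h1im : 0 < (-1 / w).im := by
    have := (UpperHalfPlane.mk w hwim).im_inv_neg_coe_pos
    have e : (-(w : ℂ))⁻¹ = -1 / w := by rw [inv_neg, neg_div, one_div]
    rw [← e]; exact this
  have h2im : 0 < (-1 / w - 2).im := by
    rw [sub_im]; simpa using h1im
  have hden : 2 * w + 1 ≠ 0 := by
    intro h
    have := congrArg Complex.im h
    simp at this
    linarith
  have hden' : 4 * (z : ℂ) + 1 = 2 * w + 1 := by rw [hw]; ring
  have e1 : 2 * ((z : ℂ) / (4 * z + 1)) = -1 / (-1 / w - 2) := by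
    rw [hden']
    have : (-1 / w - 2) = -(2 * w + 1) / w := by field_simp; ring
    rw [this, hw]
    field_simp
  rw [e1, jacobiTheta_sq_S h2im]
  have e2 : jacobiTheta (-1 / w - 2) = jacobiTheta (-1 / w) := by
    rw [← jacobiTheta_two_add (-1 / w - 2)]
    congr 1; ring
  rw [e2, jacobiTheta_sq_S hwim, hden']
  have h3 : (-1 / w - 2) * w = -(2 * w + 1) := by field_simp; ring
  have : (-I * (-1 / w - 2)) * (-I * w * jacobiTheta w ^ 2) = (2 * w + 1) * jacobiTheta w ^ 2 := by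
    calc (-I * (-1 / w - 2)) * (-I * w * jacobiTheta w ^ 2)
        = (I * I) * ((-1 / w - 2) * w) * jacobiTheta w ^ 2 := by ring
    _ = _ := by rw [Complex.I_mul_I, h3]; ring
  rw [this]
  rw [zpow_neg, zpow_one]
  field_simp

/-- termwise domination: `‖θ(τ)‖ ≤ ‖θ(i Im τ)‖`. -/
theorem norm_jacobiTheta_le_im {τ : ℂ} (hτ : 0 < τ.im) :
    ‖jacobiTheta τ‖ ≤ ‖jacobiTheta (I * (τ.im : ℂ))‖ := by
  have hre : ∀ n : ℤ, ‖cexp (π * I * (n : ℂ) ^ 2 * τ)‖ = Real.exp (-π * (n : ℝ) ^ 2 * τ.im) := by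
    intro n
    rw [Complex.norm_exp]
    congr 1
    have : (π * I * (n : ℂ) ^ 2 * τ : ℂ) = ((π * (n : ℝ) ^ 2 : ℝ) : ℂ) * (τ * I) := by
      push_cast; ring
    rw [this, re_ofReal_mul, mul_I_re]
    ring
  have hterm : ∀ n : ℤ, cexp (π * I * (n : ℂ) ^ 2 * (I * (τ.im : ℂ)))
      = ((Real.exp (-π * (n : ℝ) ^ 2 * τ.im) : ℝ) : ℂ) := by
    intro n
    rw [Complex.ofReal_exp]
    congr 1
    push_cast
    have hI : I * I = -1 := Complex.I_mul_I
    linear_combination (π * (n : ℂ) ^ 2 * (τ.im : ℂ)) * hI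
  have hsum : Summable fun n : ℤ => cexp (π * I * (n : ℂ) ^ 2 * τ) := by
    have := (summable_jacobiTheta₂_term_iff 0 τ).mpr hτ
    simpa [jacobiTheta₂_term] using this
  have hsumn : Summable fun n : ℤ => Real.exp (-π * (n : ℝ) ^ 2 * τ.im) := by
    have := hsum.norm
    simpa only [hre] using this
  have h1 : ‖jacobiTheta τ‖ ≤ ∑' n : ℤ, Real.exp (-π * (n : ℝ) ^ 2 * τ.im) := by
    unfold jacobiTheta
    refine (norm_tsum_le_tsum_norm hsum.norm).trans_eq ?_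
    exact tsum_congr hre
  have h2 : jacobiTheta (I * (τ.im : ℂ)) = ((∑' n : ℤ, Real.exp (-π * (n : ℝ) ^ 2 * τ.im) : ℝ) : ℂ) := by
    unfold jacobiTheta
    rw [Complex.ofReal_tsum]
    exact tsum_congr hterm
  rw [h2, Complex.norm_real, Real.norm_of_nonneg (tsum_nonneg fun n => (Real.exp_pos _).le)]
  exact h1

theorem exp_neg_pi_lt : Real.exp (-π) < 1 / 4 := by
  have h1 : π + 1 ≤ Real.exp π := Real.add_one_le_exp π
  have h2 : (4 : ℝ) < Real.exp π := by linarith [Real.pi_gt_three]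
  rw [Real.exp_neg, one_div]
  exact (inv_lt_inv₀ (Real.exp_pos _) (by norm_num)).mpr h2

/-- `‖θ(τ)‖ ≤ 2` for `Im τ ≥ 1`. -/
theorem norm_jacobiTheta_le_two {τ : ℂ} (hτ : 1 ≤ τ.im) : ‖jacobiTheta τ‖ ≤ 2 := by
  have hτ0 : 0 < τ.im := lt_of_lt_of_le one_pos hτ
  have h := norm_jacobiTheta_sub_one_le hτ0
  set x := Real.exp (-π * τ.im) with hx
  have hx0 : 0 < x := Real.exp_pos _
  have hx1 : x ≤ Real.exp (-π) := by
    rw [hx]; apply Real.exp_le_exp.mpr
    nlinarith [Real.pi_pos]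
  have hx2 : x < 1 / 4 := lt_of_le_of_lt hx1 exp_neg_pi_lt
  have h3 : 2 / (1 - x) * x ≤ 1 := by
    rw [div_mul_eq_mul_div, div_le_one (by linarith)]
    linarith
  calc ‖jacobiTheta τ‖ = ‖(jacobiTheta τ - 1) + 1‖ := by rw [sub_add_cancel]
    _ ≤ ‖jacobiTheta τ - 1‖ + ‖(1 : ℂ)‖ := norm_add_le _ _
    _ ≤ 1 + 1 := by rw [norm_one]; linarith
    _ = 2 := by norm_num

/-- `‖θ(τ)‖² ≤ 4 (1 + 1 / Im τ)` on the upper half plane. -/
theorem norm_jacobiTheta_sq_le {τ : ℂ} (hτ : 0 < τ.im) :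
    ‖jacobiTheta τ‖ ^ 2 ≤ 4 * (1 + 1 / τ.im) := by
  set v := τ.im with hv
  have h0 := norm_jacobiTheta_le_im hτ
  have hpos : (0 : ℝ) ≤ 1 / v := by positivity
  rcases le_total 1 v with h1 | h1
  · have him : (I * (v : ℂ)).im = v := by simp
    have := norm_jacobiTheta_le_two (τ := I * (v : ℂ)) (by rw [him]; exact h1)
    have h2 : ‖jacobiTheta τ‖ ≤ 2 := h0.trans this
    nlinarith [norm_nonneg (jacobiTheta τ)]
  · -- `θ(iv)² = (1/v) θ(i/v)²`
    have hv0 : (v : ℂ) ≠ 0 := by exact_mod_cast hτ.ne'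
    have him : (I / (v : ℂ)).im = 1 / v := by
      rw [show I / (v : ℂ) = ((1 / v : ℝ) : ℂ) * I by push_cast; field_simp]
      rw [im_ofReal_mul]; simp
    have him0 : 0 < (I / (v : ℂ)).im := by rw [him]; positivity
    have hS := jacobiTheta_sq_S him0
    have e1 : -1 / (I / (v : ℂ)) = I * (v : ℂ) := by
      have hI : I * I = -1 := Complex.I_mul_I
      field_simp
      linear_combination (-(1:ℂ)) * hI
    have e2 : -I * (I / (v : ℂ)) = ((1 / v : ℝ) : ℂ) := by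
      have hI : I * I = -1 := Complex.I_mul_I
      push_cast
      field_simp
      linear_combination (-(1:ℂ)) * hI
    rw [e1, e2] at hS
    have hle : ‖jacobiTheta (I / (v : ℂ))‖ ≤ 2 :=
      norm_jacobiTheta_le_two (by rw [him]; rw [le_div_iff₀ hτ]; linarith)
    have hn := congrArg norm hS
    rw [norm_pow, norm_mul, norm_pow, Complex.norm_real, Real.norm_of_nonneg hpos] at hn
    have : ‖jacobiTheta τ‖ ^ 2 ≤ ‖jacobiTheta (I * (v : ℂ))‖ ^ 2 :=
      pow_le_pow_left₀ (norm_nonneg _) h0 2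
    rw [hn] at this
    have h4 : ‖jacobiTheta (I / (v : ℂ))‖ ^ 2 ≤ 4 := by nlinarith [norm_nonneg (jacobiTheta (I / (v : ℂ)))]
    nlinarith

/-- `Θ` is invariant under `Γ₁(4)` in weight one. -/
theorem Th_slash_of_mem {γ : SL(2, ℤ)} (hγ : γ ∈ Gamma1 4) : Th ∣[(1 : ℤ)] γ = Th := by
  have h := Gamma1_four_le_closure hγ
  clear hγ
  induction h using Subgroup.closure_induction with
  | mem x hx =>
    rcases hx with rfl | hx
    · exact Th_slash_T
    · rw [Set.mem_singleton_iff] at hx; rw [hx]; exact Th_slash_B4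
  | one => exact SlashAction.slash_one _ _
  | mul x y _ _ hx hy => rw [SlashAction.slash_mul, hx, hy]
  | inv x _ hx =>
    conv_lhs => rw [← hx]
    rw [← SlashAction.slash_mul, mul_inv_cancel, SlashAction.slash_one]

theorem Gamma_le_Gamma1 (N : ℕ) : CongruenceSubgroup.Gamma N ≤ Gamma1 N := by
  intro γ hγ
  rw [Gamma_mem] at hγ
  rw [Gamma1_mem]
  exact ⟨hγ.1, hγ.2.2.2, hγ.2.2.1⟩

/-- every `SL₂(ℤ)`-translate of `Θ` is invariant under `z ↦ z + 4m`. -/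
theorem Th_slash_T_zpow (γ : SL(2, ℤ)) (m : ℤ) :
    (Th ∣[(1 : ℤ)] γ) ∣[(1 : ℤ)] (ModularGroup.T ^ (4 * m)) = Th ∣[(1 : ℤ)] γ := by
  have h1 : ModularGroup.T ^ (4 * m) ∈ CongruenceSubgroup.Gamma 4 := by
    have := ModularGroup_T_pow_mem_Gamma 4 (4 * m) ⟨m, rfl⟩
    simpa using this
  have h2 : γ * ModularGroup.T ^ (4 * m) * γ⁻¹ ∈ Gamma1 4 :=
    Gamma_le_Gamma1 4 ((Gamma_normal (N := 4)).conj_mem _ h1 γ)
  have h3 : γ * ModularGroup.T ^ (4 * m) = (γ * ModularGroup.T ^ (4 * m) * γ⁻¹) * γ := by group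
  rw [← SlashAction.slash_mul, h3, SlashAction.slash_mul, Th_slash_of_mem h2]

theorem slash_T_zpow_apply (F : ℍ → ℂ) (n : ℤ) (z : ℍ) :
    (F ∣[(1 : ℤ)] (ModularGroup.T ^ n)) z = F ((n : ℝ) +ᵥ z) := by
  rw [SL_slash_apply, modular_T_zpow_smul, ModularGroup.denom_apply, ModularGroup.coe_T_zpow]
  simp

theorem Th_slash_vadd (γ : SL(2, ℤ)) (m : ℤ) (z : ℍ) :
    (Th ∣[(1 : ℤ)] γ) (((4 * m : ℤ) : ℝ) +ᵥ z) = (Th ∣[(1 : ℤ)] γ) z := by
  have := congrFun (Th_slash_T_zpow γ m) z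
  rwa [slash_T_zpow_apply] at this

theorem norm_Th_le (w : ℍ) : ‖Th w‖ ≤ 4 * (1 + 1 / (2 * w.im)) := by
  unfold Th
  rw [norm_pow]
  have him : (2 * (w : ℂ)).im = 2 * w.im := by simp
  have h := norm_jacobiTheta_sq_le (τ := 2 * (w : ℂ)) (by rw [him]; linarith [w.im_pos])
  rwa [him] at h

theorem norm_Th_slash_le (γ : SL(2, ℤ)) (z : ℍ) (hy : 1 ≤ z.im) (hx : |z.re| ≤ 2) :
    ‖(Th ∣[(1 : ℤ)] γ) z‖ ≤ 4 * (1 + (3 * |(γ 1 0 : ℝ)| + |(γ 1 1 : ℝ)|) / 2) := by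
  rw [SL_slash_apply]
  set D : ℂ := denom γ z with hD
  have hD' : D = (γ 1 0 : ℂ) * (z : ℂ) + (γ 1 1 : ℂ) := ModularGroup.denom_apply γ z
  have hD0 : D ≠ 0 := denom_ne_zero _ z
  have hDpos : 0 < ‖D‖ := norm_pos_iff.mpr hD0
  have him : (γ • z).im = z.im / ‖D‖ ^ 2 := by
    rw [ModularGroup.im_smul_eq_div_normSq, Complex.normSq_eq_norm_sq]
  have hy0 : 0 < z.im := z.im_pos
  -- lower bound
  have hlow : 1 ≤ ‖D‖ := by
    by_cases hc : γ 1 0 = 0
    · have hdet : γ 0 0 * γ 1 1 - γ 0 1 * γ 1 0 = 1 := by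
        have := γ.det_coe
        rw [Matrix.det_fin_two] at this
        exact this
      rw [hc, mul_zero, sub_zero] at hdet
      have hd : |(γ 1 1 : ℝ)| = 1 := by
        rcases Int.eq_one_or_neg_one_of_mul_eq_one' hdet with ⟨_, h⟩ | ⟨_, h⟩ <;> rw [h] <;> simp
      rw [hD', hc]
      simp only [Int.cast_zero, zero_mul, zero_add]
      rw [show ((γ 1 1 : ℤ) : ℂ) = (((γ 1 1 : ℤ) : ℝ) : ℂ) by push_cast; rfl, Complex.norm_real,
        Real.norm_eq_abs, hd]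
    · have h1 : |D.im| ≤ ‖D‖ := Complex.abs_im_le_norm D
      have h2 : D.im = (γ 1 0 : ℝ) * z.im := by
        rw [hD']
        simp
      have h3 : (1 : ℝ) ≤ |(γ 1 0 : ℝ)| := by
        have : (1 : ℤ) ≤ |γ 1 0| := Int.one_le_abs hc
        exact_mod_cast this
      rw [h2, abs_mul, abs_of_pos hy0] at h1
      nlinarith
  -- upper bound
  have hup : ‖D‖ ≤ |(γ 1 0 : ℝ)| * (2 + z.im) + |(γ 1 1 : ℝ)| := by
    rw [hD']
    have hz : ‖(z : ℂ)‖ ≤ 2 + z.im := by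
      calc ‖(z : ℂ)‖ ≤ |(z : ℂ).re| + |(z : ℂ).im| := Complex.norm_le_abs_re_add_abs_im _
        _ ≤ 2 + z.im := by
          have : |(z : ℂ).im| = z.im := abs_of_pos hy0
          rw [this]
          have : (z : ℂ).re = z.re := rfl
          rw [this]; linarith
    calc ‖(γ 1 0 : ℂ) * (z : ℂ) + (γ 1 1 : ℂ)‖ ≤ ‖(γ 1 0 : ℂ) * (z : ℂ)‖ + ‖(γ 1 1 : ℂ)‖ := norm_add_le _ _
      _ = |(γ 1 0 : ℝ)| * ‖(z : ℂ)‖ + |(γ 1 1 : ℝ)| := by
          rw [norm_mul]
          congr 1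
          · congr 1
            rw [show ((γ 1 0 : ℤ) : ℂ) = (((γ 1 0 : ℤ) : ℝ) : ℂ) by push_cast; rfl, Complex.norm_real,
              Real.norm_eq_abs]
          · rw [show ((γ 1 1 : ℤ) : ℂ) = (((γ 1 1 : ℤ) : ℝ) : ℂ) by push_cast; rfl, Complex.norm_real,
              Real.norm_eq_abs]
      _ ≤ _ := by gcongr
  have hTh := norm_Th_le (γ • z)
  rw [him] at hTh
  rw [norm_mul, zpow_neg, zpow_one, norm_inv]
  have hc0 : 0 ≤ |(γ 1 0 : ℝ)| := abs_nonneg _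
  have hd0 : 0 ≤ |(γ 1 1 : ℝ)| := abs_nonneg _
  have e1 : 1 / (2 * (z.im / ‖D‖ ^ 2)) = ‖D‖ ^ 2 / (2 * z.im) := by
    field_simp
  rw [e1] at hTh
  calc ‖Th (γ • z)‖ * ‖D‖⁻¹ ≤ 4 * (1 + ‖D‖ ^ 2 / (2 * z.im)) * ‖D‖⁻¹ := by gcongr
    _ = 4 * (‖D‖⁻¹ + ‖D‖ / (2 * z.im)) := by field_simp
    _ ≤ 4 * (1 + (3 * |(γ 1 0 : ℝ)| + |(γ 1 1 : ℝ)|) / 2) := by
      have h1 : ‖D‖⁻¹ ≤ 1 := inv_le_one_of_one_le₀ hlow
      have h2 : ‖D‖ / (2 * z.im) ≤ (3 * |(γ 1 0 : ℝ)| + |(γ 1 1 : ℝ)|) / 2 := by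
        rw [div_le_div_iff₀ (by positivity) (by norm_num)]
        nlinarith
      linarith

theorem isBoundedAtImInfty_Th_slash (γ : SL(2, ℤ)) : IsBoundedAtImInfty (Th ∣[(1 : ℤ)] γ) := by
  rw [UpperHalfPlane.isBoundedAtImInfty_iff]
  refine ⟨4 * (1 + (3 * |(γ 1 0 : ℝ)| + |(γ 1 1 : ℝ)|) / 2), 1, fun z hz => ?_⟩
  set m : ℤ := round (z.re / 4) with hm
  have h1 : |z.re / 4 - m| ≤ 1 / 2 := abs_sub_round _
  set z' : ℍ := ((4 * (-m) : ℤ) : ℝ) +ᵥ z with hz'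
  have hre : z'.re = z.re - 4 * m := by
    rw [hz', UpperHalfPlane.vadd_re]; push_cast; ring
  have him : z'.im = z.im := by rw [hz', UpperHalfPlane.vadd_im]
  have hx : |z'.re| ≤ 2 := by
    rw [hre, abs_le] at *
    constructor <;> linarith [h1.1, h1.2]
  have := norm_Th_slash_le γ z' (by rw [him]; exact hz) hx
  rwa [hz', Th_slash_vadd] at this

/-- uniqueness of `q`-expansion coefficients, for plain functions -/
theorem coeff_qExpansion_of_hasSum {f : ℍ → ℂ} {c : ℕ → ℂ} (hf : IsQExp f)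
    (hs : ∀ τ : ℍ, HasSum (fun m : ℕ => c m • Function.Periodic.qParam (1 : ℝ) τ ^ m) (f τ)) (m : ℕ) :
    (qExpansion 1 f).coeff m = c m := by
  have h1 := (hasFPowerSeriesOnBall_cuspFunction (h := (1 : ℝ)) one_pos hf.analyticAt hs).hasFPowerSeriesAt
  have h2 := hf.analyticAt.hasFPowerSeriesAt
  have h3 := congrArg (FormalMultilinearSeries.coeff · m) (h1.eq_formalMultilinearSeries h2)
  simp only [FormalMultilinearSeries.coeff_ofScalars] at h3
  rw [qExpansion_coeff, h3, div_eq_inv_mul]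

/-- `ϑ(z) = θ(2z) = ∑ q^{n²}`. -/
def vth (z : ℍ) : ℂ := jacobiTheta (2 * (z : ℂ))

theorem Th_eq : Th = vth * vth := by
  ext z; simp [Th, vth, sq]

theorem mdiff_vth : MDiff vth := by
  rw [UpperHalfPlane.mdifferentiable_iff]
  have h : Set.EqOn (vth ∘ ofComplex) (fun w => jacobiTheta (2 * w)) {z | 0 < z.im} := by
    intro w hw
    simp [vth, ofComplex_apply_of_im_pos hw]
  refine DifferentiableOn.congr ?_ h
  intro w hw
  have h1 : DifferentiableAt ℂ jacobiTheta (2 * w) :=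
    differentiableAt_jacobiTheta (by simpa using hw)
  have h2 : DifferentiableAt ℂ (fun w : ℂ => 2 * w) w := differentiableAt_id.const_mul 2
  exact (h1.comp w h2).differentiableWithinAt

theorem periodic_vth : Function.Periodic (vth ∘ ofComplex) 1 := by
  intro w
  by_cases hw : 0 < w.im
  · have hw1 : 0 < (w + 1).im := by simpa using hw
    simp only [Function.comp_apply, ofComplex_apply_of_im_pos hw, ofComplex_apply_of_im_pos hw1, vth]
    show jacobiTheta (2 * (w + 1)) = jacobiTheta (2 * w)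
    rw [show 2 * (w + 1) = 2 + 2 * w by ring, jacobiTheta_two_add]
  · have hw1 : ¬ 0 < (w + 1).im := by simpa using hw
    simp only [Function.comp_apply]
    rw [ofComplex_apply_of_im_nonpos (not_lt.mp hw), ofComplex_apply_of_im_nonpos (not_lt.mp hw1)]

/-- the coefficients of `ϑ` -/
def vthCoeff (m : ℕ) : ℤ := if m = 0 then 1 else if IsSquare m then 2 else 0

theorem hasSum_vth (z : ℍ) :
    HasSum (fun m : ℕ => ((vthCoeff m : ℤ) : ℂ) • Function.Periodic.qParam 1 z ^ m) (vth z) := by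
  set q := Function.Periodic.qParam 1 (z : ℂ) with hq
  have him : 0 < (2 * (z : ℂ)).im := by simp [z.im_pos]
  have h1 := hasSum_nat_jacobiTheta him
  have hterm : ∀ n : ℕ, cexp (π * I * ((n : ℂ) + 1) ^ 2 * (2 * (z : ℂ))) = q ^ ((n + 1) ^ 2) := by
    intro n
    rw [hq, Function.Periodic.qParam, ← Complex.exp_nat_mul]
    congr 1
    push_cast
    ring
  simp only [hterm] at h1
  -- the series `∑ s(m) q^m`
  let s : ℕ → ℂ := fun m => if m ≠ 0 ∧ IsSquare m then 1 else 0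
  have hinj : Function.Injective fun n : ℕ => (n + 1) ^ 2 := by
    intro a b hab
    have : a + 1 = b + 1 := Nat.pow_left_injective (n := 2) (by norm_num) hab
    omega
  have h2 : HasSum (fun m : ℕ => s m * q ^ m) ((jacobiTheta (2 * (z : ℂ)) - 1) / 2) := by
    rw [← hinj.hasSum_iff]
    · convert h1 using 1
      ext n
      simp only [Function.comp_apply, s]
      rw [if_pos ⟨by positivity, ⟨n + 1, by ring⟩⟩, one_mul]
    · intro m hm
      simp only [s]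
      rw [if_neg, zero_mul]
      rintro ⟨hm0, r, hr⟩
      apply hm
      have hr0 : r ≠ 0 := by rintro rfl; simp at hr; exact hm0 hr
      exact ⟨r - 1, by simp only; rw [Nat.sub_add_cancel (Nat.one_le_iff_ne_zero.mpr hr0), hr]; ring⟩
  have h3 : HasSum (fun m : ℕ => if m = 0 then (1 : ℂ) else 0) 1 := hasSum_ite_eq 0 1
  have h4 := h3.add (h2.mul_left 2)
  have e : (1 : ℂ) + 2 * ((jacobiTheta (2 * (z : ℂ)) - 1) / 2) = vth z := by
    simp only [vth]; ring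
  rw [e] at h4
  convert h4 using 1
  ext m
  simp only [vthCoeff, s, smul_eq_mul]
  by_cases hm : m = 0
  · subst hm; simp
  · by_cases hsq : IsSquare m
    · simp [hm, hsq]
    · simp [hm, hsq]

theorem isQExp_vth : IsQExp vth where
  per := periodic_vth
  hol := mdiff_vth
  bdd := by
    have h := isBoundedAtImInfty_of_hasSum_qExpansion (f := vth)
      (c := fun m => ((vthCoeff m : ℤ) : ℂ)) (h := (1 : ℝ)) one_pos
    exact h hasSum_vth

/-- `ϑ ∈ 1 + 2qℤ[[q]]` as an integral power series -/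
def vthZ : PowerSeries ℤ := PowerSeries.mk vthCoeff

theorem qExpansion_vth : qExpansion 1 vth = PowerSeries.map (Int.castRingHom ℂ) vthZ := by
  ext m
  rw [PowerSeries.coeff_map, vthZ, PowerSeries.coeff_mk,
    coeff_qExpansion_of_hasSum (c := fun m => ((vthCoeff m : ℤ) : ℂ)) isQExp_vth hasSum_vth]
  rfl

/-- the integral `q`-expansion of `Θ` -/
def ThZ : PowerSeries ℤ := vthZ * vthZ

theorem isQExp_Th : IsQExp Th := by
  rw [Th_eq]; exact isQExp_mul isQExp_vth isQExp_vth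

theorem qExpansion_Th : qExpansion 1 Th = PowerSeries.map (Int.castRingHom ℂ) ThZ := by
  rw [Th_eq, qExpansion_mul_of_isQExp isQExp_vth isQExp_vth, qExpansion_vth, ThZ, map_mul]

theorem constantCoeff_ThZ : PowerSeries.constantCoeff ThZ = 1 := by
  rw [ThZ, map_mul, vthZ]
  simp [vthCoeff]

theorem isUnit_ThZ : IsUnit ThZ := by
  rw [PowerSeries.isUnit_iff_constantCoeff, constantCoeff_ThZ]
  exact isUnit_one

theorem Th_ne_zero : Th ≠ 0 := by
  intro h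
  have h1 := qExpansion_Th
  rw [h, qExpansion_zero] at h1
  have h2 := congrArg (PowerSeries.coeff 0) h1
  rw [PowerSeries.coeff_map, PowerSeries.coeff_zero_eq_constantCoeff_apply,
    PowerSeries.coeff_zero_eq_constantCoeff_apply, constantCoeff_ThZ] at h2
  simp at h2

/-- `Θ` is a weight-one modular function on `Γ₁(4)`. -/
theorem isModFun_Th : IsModFun 4 1 Th where
  hol := isQExp_Th.hol
  inv := fun _ hγ => Th_slash_of_mem hγ
  bdd := isBoundedAtImInfty_Th_slash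

end Fermat.Agent.S48lib.Conj
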