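/-
S48lib / Conj / Conj  (helper1)

Conjugation of `q`-expansions by a ring homomorphism `τ : ℂ →+* ℂ`:
* weight 2 (`exists_conj_two`): from the hypothesis `SpanInt M` = "`S₂(Γ₁(M))` is spanned over `ℂ`
  by forms with integral `q`-expansion" (a clause of `Iface.W2Int M`);
* weight 1 (`exists_conj_one`), `4 ∣ M`: `h := (fΘ)^τ / Θ`, holomorphic because `h² = (f²)^τ`.
-/
import Mathlib
import Fermat.Prelude.Def_FLTPrelim_Modularity
import Fermat.Agent.S48lib.Iface.W2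
import Fermat.Agent.S48lib.W1.HeckeT
import Fermat.Agent.S48lib.Conj.Forms
import Fermat.Agent.S48lib.Conj.Theta
import Fermat.Agent.S48lib.Conj.Div

set_option autoImplicit false

noncomputable section

namespace Fermat.Agent.S48lib.Conj

open UpperHalfPlane CongruenceSubgroup ModularForm ModularFormClass
open scoped MatrixGroups ModularForm Manifold
open Fermat.Agent.S48lib.W1 (IsQExp isQExp_of_cuspForm)

/-- `S₂(Γ₁(M))` is spanned over `ℂ` by the forms with integral `q`-expansion. -/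
def SpanInt (M : ℕ) : Prop :=
  Submodule.span ℂ ((Iface.intLattice M 2 : Submodule ℤ (CuspForm (Gamma1 M) 2)) :
    Set (CuspForm (Gamma1 M) 2)) = ⊤

theorem spanInt_of_W2Int {M : ℕ} (h : Iface.W2Int M) : SpanInt M := h.2.1

variable {M : ℕ} [NeZero M]

section linear

variable {k : ℤ}

theorem qExpansion_cusp_zero :
    qExpansion 1 (⇑(0 : CuspForm (Gamma1 M : Subgroup (GL (Fin 2) ℝ)) k)) = 0 := by
  rw [FunLike.coe_zero]; exact qExpansion_zero 1

theorem qExpansion_cusp_add (f g : CuspForm (Gamma1 M : Subgroup (GL (Fin 2) ℝ)) k) :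
    qExpansion 1 (⇑(f + g)) = qExpansion 1 ⇑f + qExpansion 1 ⇑g := by
  rw [FunLike.coe_add]
  exact qExpansion_add (isQExp_of_cuspForm f).analyticAt (isQExp_of_cuspForm g).analyticAt

theorem qExpansion_cusp_smul (c : ℂ) (f : CuspForm (Gamma1 M : Subgroup (GL (Fin 2) ℝ)) k) :
    qExpansion 1 (⇑(c • f)) = c • qExpansion 1 ⇑f := by
  rw [FunLike.coe_smul]
  exact qExpansion_smul (isQExp_of_cuspForm f).analyticAt c

theorem qExpansion_cusp_neg (f : CuspForm (Gamma1 M : Subgroup (GL (Fin 2) ℝ)) k) :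
    qExpansion 1 (⇑(-f)) = -qExpansion 1 ⇑f := by
  rw [FunLike.coe_neg]
  exact qExpansion_neg (isQExp_of_cuspForm f).analyticAt

end linear

/-- elements of the integral lattice have integral `q`-expansion -/
theorem exists_int_qExpansion {k : ℤ} {x : CuspForm (Gamma1 M : Subgroup (GL (Fin 2) ℝ)) k}
    (hx : x ∈ Iface.intLattice M k) :
    ∃ P : PowerSeries ℤ, qExpansion 1 ⇑x = PowerSeries.map (Int.castRingHom ℂ) P := by
  unfold Iface.intLattice at hx
  induction hx using Submodule.span_induction with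
  | mem x hx =>
    choose m hm using hx
    refine ⟨PowerSeries.mk m, ?_⟩
    ext n
    rw [PowerSeries.coeff_map, PowerSeries.coeff_mk]
    exact hm n
  | zero => exact ⟨0, by rw [qExpansion_cusp_zero, map_zero]⟩
  | add x y _ _ hx hy =>
    obtain ⟨P, hP⟩ := hx
    obtain ⟨Q, hQ⟩ := hy
    exact ⟨P + Q, by rw [qExpansion_cusp_add, hP, hQ, map_add]⟩
  | smul c x _ hx =>
    obtain ⟨P, hP⟩ := hx
    refine ⟨PowerSeries.C c * P, ?_⟩
    have : c • x = (c : ℂ) • x := by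
      rw [← Int.cast_smul_eq_zsmul ℂ c x]
    rw [this, qExpansion_cusp_smul, hP, map_mul, PowerSeries.map_C, PowerSeries.smul_eq_C_mul]
    simp

theorem map_map_intCast (τ : ℂ →+* ℂ) (P : PowerSeries ℤ) :
    PowerSeries.map τ (PowerSeries.map (Int.castRingHom ℂ) P) =
      PowerSeries.map (Int.castRingHom ℂ) P := by
  ext n
  simp [PowerSeries.coeff_map]

/-- **conjugation in weight 2** -/
theorem exists_conj_two (hM : SpanInt M) (τ : ℂ →+* ℂ)
    (F : CuspForm (Gamma1 M : Subgroup (GL (Fin 2) ℝ)) 2) :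
    ∃ F' : CuspForm (Gamma1 M : Subgroup (GL (Fin 2) ℝ)) 2,
      qExpansion 1 ⇑F' = PowerSeries.map τ (qExpansion 1 ⇑F) := by
  have hF : F ∈ Submodule.span ℂ ((Iface.intLattice M 2 : Submodule ℤ (CuspForm (Gamma1 M) 2)) :
      Set (CuspForm (Gamma1 M) 2)) := by
    rw [hM]; trivial
  induction hF using Submodule.span_induction with
  | mem x hx =>
    obtain ⟨P, hP⟩ := exists_int_qExpansion hx
    exact ⟨x, by rw [hP, map_map_intCast]⟩
  | zero => exact ⟨0, by rw [qExpansion_cusp_zero, map_zero]⟩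
  | add x y _ _ hx hy =>
    obtain ⟨x', hx'⟩ := hx
    obtain ⟨y', hy'⟩ := hy
    exact ⟨x' + y', by rw [qExpansion_cusp_add, qExpansion_cusp_add, hx', hy', map_add]⟩
  | smul c x _ hx =>
    obtain ⟨x', hx'⟩ := hx
    refine ⟨τ c • x', ?_⟩
    rw [qExpansion_cusp_smul, qExpansion_cusp_smul, hx']
    ext n
    simp [PowerSeries.coeff_map]

theorem isZeroAtImInfty_of_mul_self {g : ℍ → ℂ} (h : IsZeroAtImInfty (g * g)) :
    IsZeroAtImInfty g := by
  unfold IsZeroAtImInfty Filter.ZeroAtFilter at h ⊢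
  rw [tendsto_zero_iff_norm_tendsto_zero] at h ⊢
  have h1 : Filter.Tendsto (fun z => Real.sqrt ‖(g * g) z‖) atImInfty (nhds (Real.sqrt 0)) :=
    (Real.continuous_sqrt.tendsto 0).comp h
  rw [Real.sqrt_zero] at h1
  refine h1.congr fun z => ?_
  rw [Pi.mul_apply, norm_mul, Real.sqrt_mul_self (norm_nonneg _)]

/-- **conjugation in weight 1** at a level divisible by `4`. -/
theorem exists_conj_one (hM : SpanInt M) (h4 : 4 ∣ M) (τ : ℂ →+* ℂ) {f : ℍ → ℂ}
    (hf : IsCuspFun M 1 f) :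
    ∃ h : ℍ → ℂ, IsCuspFun M 1 h ∧ qExpansion 1 h = PowerSeries.map τ (qExpansion 1 f) := by
  have hΘ : IsModFun M 1 Th := isModFun_Th.mono h4
  have hfq : IsQExp f := hf.isQExp
  have hΘq : IsQExp Th := isQExp_Th
  -- the two weight-2 forms `fΘ`, `f²`
  have h1 : IsCuspFun M 2 (f * Th) := hf.mul hΘ
  have h2 : IsCuspFun M 2 (f * f) := hf.mul hf.isModFun
  obtain ⟨G₁, hG₁⟩ := exists_conj_two hM τ h1.toCuspForm
  obtain ⟨G₂, hG₂⟩ := exists_conj_two hM τ h2.toCuspForm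
  rw [IsCuspFun.coe_toCuspForm, qExpansion_mul_of_isQExp hfq hΘq, map_mul, qExpansion_Th,
    map_map_intCast] at hG₁
  rw [IsCuspFun.coe_toCuspForm, qExpansion_mul_of_isQExp hfq hfq, map_mul] at hG₂
  set A := PowerSeries.map τ (qExpansion 1 f) with hA
  set R : PowerSeries ℂ := PowerSeries.map (Int.castRingHom ℂ) ThZ with hR
  have hG₁c : IsCuspFun M 2 ⇑G₁ := IsCuspFun.of_cuspForm G₁ dvd_rfl
  have hG₂c : IsCuspFun M 2 ⇑G₂ := IsCuspFun.of_cuspForm G₂ dvd_rfl
  -- `G₁² = G₂ Θ²`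
  have hsq : (⇑G₁ : ℍ → ℂ) * ⇑G₁ = ⇑G₂ * (Th * Th) := by
    refine isQExp_ext_qExpansion (isQExp_mul hG₁c.isQExp hG₁c.isQExp)
      (isQExp_mul hG₂c.isQExp (isQExp_mul hΘq hΘq)) ?_
    rw [qExpansion_mul_of_isQExp hG₁c.isQExp hG₁c.isQExp,
      qExpansion_mul_of_isQExp hG₂c.isQExp (isQExp_mul hΘq hΘq),
      qExpansion_mul_of_isQExp hΘq hΘq, hG₁, hG₂, qExpansion_Th]
    ring
  obtain ⟨H, hHd, hH1, hH2⟩ := exists_div_of_sq hΘq.hol Th_ne_zero hG₁c.hol hG₂c.hol hsq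
  have hHc : IsCuspFun M 1 H := by
    refine ⟨hHd, fun γ hγ => ?_, fun γ => ?_⟩
    · have hsl : MDiff (H ∣[(1 : ℤ)] γ) := hHd.slash 1 _
      refine eq_of_mul_eq_mul hsl hHd hΘq.hol Th_ne_zero ?_
      have e1 : (H * Th) ∣[(1 : ℤ) + 1] γ = (H ∣[(1 : ℤ)] γ) * (Th ∣[(1 : ℤ)] γ) :=
        mul_slash_SL2 1 1 γ H Th
      rw [hΘ.inv γ hγ, hH1] at e1
      rw [← e1, hH1]
      exact hG₁c.inv γ hγ
    · apply isZeroAtImInfty_of_mul_self
      have e1 : (H * H) ∣[(1 : ℤ) + 1] γ = (H ∣[(1 : ℤ)] γ) * (H ∣[(1 : ℤ)] γ) :=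
        mul_slash_SL2 1 1 γ H H
      rw [← e1, hH2]
      exact hG₂c.zero γ
  refine ⟨H, hHc, ?_⟩
  have e2 : qExpansion 1 H * R = A * R := by
    rw [← hG₁, ← hH1, qExpansion_mul_of_isQExp hHc.isQExp hΘq, qExpansion_Th]
  have hR0 : R ≠ 0 := by
    intro h0
    have := congrArg (PowerSeries.coeff 0) h0
    rw [hR, PowerSeries.coeff_map, PowerSeries.coeff_zero_eq_constantCoeff_apply,
      constantCoeff_ThZ] at this
    simp at this
  exact mul_right_cancel₀ hR0 e2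

end Fermat.Agent.S48lib.Conj
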